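import Fermat.Agent.MeanValue.Kernels

/-!
# The mean value theorem of Montgomery and Vaughan

`∫ ‖∑ a r * exp (I * l r * t)‖ ^ 2` over an interval is its length times `∑ ‖a r‖ ^ 2` up to
`4 π ∑ ‖a r‖ ^ 2 / w r`, `w r` the gap at `l r`; for Dirichlet polynomials the error is
`4 π ∑ (n + 1/2) ‖a n‖ ^ 2`.
-/

set_option autoImplicit false

noncomputable section

namespace FA.MeanValue

open Finset Complex
open scoped Real ComplexConjugate

variable {ι : Type*} [Fintype ι]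

/-- The trigonometric sum. -/
def freqSum (l : ι → ℝ) (a : ι → ℂ) (t : ℝ) : ℂ := ∑ r, a r * exp (I * l r * t)

/-- **The expansion of the mean square.** -/
theorem integral_norm_sq_freqSum {l : ι → ℝ} (hl : Function.Injective l) (a : ι → ℂ) (u v : ℝ) :
    ((∫ t in u..v, ‖freqSum l a t‖ ^ 2 : ℝ) : ℂ) = ((v - u) * ∑ r, ‖a r‖ ^ 2 : ℝ) +
      -I * ((∑ r, ∑ s, a r * exp (I * l r * v) * conj (a s * exp (I * l s * v)) /
          ((l r - l s : ℝ) : ℂ)) -
        ∑ r, ∑ s, a r * exp (I * l r * u) * conj (a s * exp (I * l s * u)) /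
          ((l r - l s : ℝ) : ℂ)) := by
  classical
  rw [← intervalIntegral.integral_ofReal]
  have e : ∀ t : ℝ, ((‖freqSum l a t‖ ^ 2 : ℝ) : ℂ) =
      ∑ r, ∑ s, a r * conj (a s) * exp (I * ((l r - l s : ℝ) : ℂ) * t) := by
    intro t
    rw [Complex.ofReal_pow, ← Complex.mul_conj', freqSum, map_sum, sum_mul]
    refine sum_congr rfl fun r _ => ?_
    rw [mul_sum]
    refine sum_congr rfl fun s _ => ?_
    rw [map_mul, ← Complex.exp_conj, map_mul, map_mul, Complex.conj_I, Complex.conj_ofReal,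
      Complex.conj_ofReal, mul_mul_mul_comm, ← Complex.exp_add]
    congr 2
    push_cast
    ring
  simp only [e]
  have hcont : ∀ r s, Continuous fun t : ℝ =>
      a r * conj (a s) * exp (I * ((l r - l s : ℝ) : ℂ) * t) := fun r s => by fun_prop
  rw [intervalIntegral.integral_finsetSum fun r _ =>
    (continuous_finsetSum _ fun s _ => hcont r s).intervalIntegrable u v]
  simp only [intervalIntegral.integral_finsetSum
    (fun s _ => (hcont _ s).intervalIntegrable u v)]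
  have key : ∀ r s, ∫ t in u..v, a r * conj (a s) * exp (I * ((l r - l s : ℝ) : ℂ) * t) =
      (if r = s then (((v - u) * ‖a r‖ ^ 2 : ℝ) : ℂ) else 0) +
        -I * (a r * exp (I * l r * v) * conj (a s * exp (I * l s * v)) /
            ((l r - l s : ℝ) : ℂ) -
          a r * exp (I * l r * u) * conj (a s * exp (I * l s * u)) /
            ((l r - l s : ℝ) : ℂ)) := by
    intro r s
    rcases eq_or_ne r s with rfl | hne
    · simp only [sub_self, Complex.ofReal_zero, mul_zero, zero_mul, Complex.exp_zero, mul_one,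
        div_zero, add_zero, if_true]
      rw [intervalIntegral.integral_const, Complex.mul_conj', Complex.real_smul]
      push_cast
      ring
    have hd : ((l r - l s : ℝ) : ℂ) ≠ 0 :=
      Complex.ofReal_ne_zero.2 (sub_ne_zero.2 (hl.ne hne))
    rw [if_neg hne, zero_add, intervalIntegral.integral_const_mul,
      integral_exp_mul_complex (mul_ne_zero I_ne_zero hd)]
    have e2 : ∀ t : ℝ, exp (I * ((l r - l s : ℝ) : ℂ) * t) =
        exp (I * l r * t) * conj (exp (I * l s * t)) := fun t => by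
      rw [← Complex.exp_conj, map_mul, map_mul, Complex.conj_I, Complex.conj_ofReal,
        Complex.conj_ofReal, ← Complex.exp_add]
      congr 1
      push_cast
      ring
    rw [e2, e2, map_mul, map_mul, ← div_div, Complex.div_I]
    ring
  simp only [key, sum_add_distrib, sum_ite_eq, mem_univ, if_true, ← mul_sum, sum_sub_distrib,
    ← Complex.ofReal_sum]

/-- **Montgomery–Vaughan, individual gaps.** -/
theorem mean_value_gaps {l w : ι → ℝ} (hw : ∀ r, 0 < w r)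
    (hgap : ∀ r s, r ≠ s → w r ≤ |l r - l s|) (a : ι → ℂ) (u v : ℝ) :
    |(∫ t in u..v, ‖freqSum l a t‖ ^ 2) - (v - u) * ∑ r, ‖a r‖ ^ 2| ≤
      4 * π * ∑ r, ‖a r‖ ^ 2 / w r := by
  have h := integral_norm_sq_freqSum (injective_of_gap hw hgap) a u v
  have hn : ∀ (t : ℝ) r, ‖a r * exp (I * l r * t)‖ = ‖a r‖ := fun t r => by
    rw [norm_mul, mul_assoc, ← Complex.ofReal_mul, Complex.norm_exp_I_mul_ofReal, mul_one]
  have hb : ∀ t : ℝ, ‖∑ r, ∑ s, a r * exp (I * l r * t) * conj (a s * exp (I * l s * t)) /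
      ((l r - l s : ℝ) : ℂ)‖ ≤ 2 * π * ∑ r, ‖a r‖ ^ 2 / w r := fun t => by
    refine (hilbert_weighted_le hw hgap (fun r => a r * exp (I * l r * t))
      (fun r => a r * exp (I * l r * t))).trans (le_of_eq ?_)
    simp only [hn]
    rw [Real.mul_self_sqrt (sum_nonneg fun r _ => div_nonneg (sq_nonneg _) (hw r).le)]
  rw [← Real.norm_eq_abs, ← Complex.norm_real, Complex.ofReal_sub, h, add_sub_cancel_left,
    norm_mul, norm_neg, Complex.norm_I, one_mul]
  refine (norm_sub_le _ _).trans ((add_le_add (hb v) (hb u)).trans (le_of_eq ?_))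
  ring

/-- **Montgomery–Vaughan, uniform gap.** -/
theorem mean_value_spaced {l : ι → ℝ} {δ : ℝ} (hδ : 0 < δ)
    (hgap : ∀ r s, r ≠ s → δ ≤ |l r - l s|) (a : ι → ℂ) (u v : ℝ) :
    |(∫ t in u..v, ‖freqSum l a t‖ ^ 2) - (v - u) * ∑ r, ‖a r‖ ^ 2| ≤
      2 * π / δ * ∑ r, ‖a r‖ ^ 2 := by
  have h := integral_norm_sq_freqSum (injective_of_gap (w := fun _ => δ) (fun _ => hδ) hgap) a u v
  have hn : ∀ (t : ℝ) r, ‖a r * exp (I * l r * t)‖ = ‖a r‖ := fun t r => by
    rw [norm_mul, mul_assoc, ← Complex.ofReal_mul, Complex.norm_exp_I_mul_ofReal, mul_one]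
  have hb : ∀ t : ℝ, ‖∑ r, ∑ s, a r * exp (I * l r * t) * conj (a s * exp (I * l s * t)) /
      ((l r - l s : ℝ) : ℂ)‖ ≤ π / δ * ∑ r, ‖a r‖ ^ 2 := fun t => by
    refine (hilbert_le hδ hgap (fun r => a r * exp (I * l r * t))
      (fun r => a r * exp (I * l r * t))).trans (le_of_eq ?_)
    simp only [hn]
    rw [Real.mul_self_sqrt (sum_nonneg fun r _ => sq_nonneg _)]
  rw [← Real.norm_eq_abs, ← Complex.norm_real, Complex.ofReal_sub, h, add_sub_cancel_left,
    norm_mul, norm_neg, Complex.norm_I, one_mul]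
  refine (norm_sub_le _ _).trans ((add_le_add (hb v) (hb u)).trans (le_of_eq ?_))
  ring

omit [Fintype ι] in
/-- The gaps of the `log n`. -/
theorem log_gap_le {m n : ℕ} (hm : 0 < m) (hn : 0 < n) (hne : m ≠ n) :
    Real.log (1 + 1 / (m : ℝ)) ≤ |Real.log m - Real.log n| := by
  have hm' : (0 : ℝ) < m := Nat.cast_pos.2 hm
  have hn' : (0 : ℝ) < n := Nat.cast_pos.2 hn
  rw [← Real.log_div hm'.ne' hn'.ne']
  rcases hne.lt_or_gt with h | h
  · have h1 : (m : ℝ) + 1 ≤ n := by exact_mod_cast h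
    refine le_trans ?_ (neg_le_abs _)
    rw [← Real.log_inv, inv_div]
    refine Real.log_le_log (by positivity) ?_
    rw [one_add_div hm'.ne']
    exact div_le_div_of_nonneg_right h1 hm'.le
  · have h1 : (n : ℝ) + 1 ≤ m := by exact_mod_cast h
    refine le_trans ?_ (le_abs_self _)
    refine Real.log_le_log (by positivity) ?_
    rw [one_add_div hm'.ne', div_le_div_iff₀ hm' hn']
    nlinarith

omit [Fintype ι] in
/-- `1 / log (1 + 1 / n) ≤ n + 1 / 2`. -/
theorem inv_log_gap_le {n : ℕ} (hn : 0 < n) :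
    1 / Real.log (1 + 1 / (n : ℝ)) ≤ n + 1 / 2 := by
  have hn' : (0 : ℝ) < n := Nat.cast_pos.2 hn
  have h := Real.le_log_one_add_of_nonneg (x := 1 / (n : ℝ)) (by positivity)
  have e : 2 * (1 / (n : ℝ)) / (1 / (n : ℝ) + 2) = 1 / ((n : ℝ) + 1 / 2) := by
    field_simp
    ring
  rw [e] at h
  exact (one_div_le_one_div_of_le (by positivity) h).trans_eq (one_div_one_div _)

omit [Fintype ι] in
/-- **The mean value theorem for Dirichlet polynomials** (Montgomery–Vaughan). -/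
theorem mean_value_dirichlet (a : ℕ → ℂ) (N : ℕ) (u v : ℝ) :
    |(∫ t in u..v, ‖∑ n ∈ Icc 1 N, a n * (n : ℂ) ^ (-(I * (t : ℂ)))‖ ^ 2) -
        (v - u) * ∑ n ∈ Icc 1 N, ‖a n‖ ^ 2| ≤
      4 * π * ∑ n ∈ Icc 1 N, ((n : ℝ) + 1 / 2) * ‖a n‖ ^ 2 := by
  have hpos : ∀ n : Icc 1 N, 0 < (n : ℕ) := fun n => (mem_Icc.1 n.2).1
  have h := mean_value_gaps (l := fun n : Icc 1 N => -Real.log (n : ℕ))
    (w := fun n : Icc 1 N => Real.log (1 + 1 / ((n : ℕ) : ℝ)))
    (fun n => Real.log_pos (lt_add_of_pos_right 1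
      (one_div_pos.2 (Nat.cast_pos.2 (hpos n)))))
    (fun r s hne => by
      rw [neg_sub_neg, abs_sub_comm]
      exact log_gap_le (hpos r) (hpos s) (fun e => hne (Subtype.ext e)))
    (fun n : Icc 1 N => a n) u v
  have e : ∀ t : ℝ, freqSum (fun n : Icc 1 N => -Real.log (n : ℕ)) (fun n : Icc 1 N => a n) t =
      ∑ n ∈ Icc 1 N, a n * (n : ℂ) ^ (-(I * (t : ℂ))) := fun t => by
    rw [freqSum, ← sum_coe_sort (Icc 1 N)]
    refine sum_congr rfl fun n _ => ?_
    rw [Complex.cpow_def_of_ne_zero (Nat.cast_ne_zero.2 (hpos n).ne'), ← Complex.natCast_log]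
    congr 2
    push_cast
    ring
  simp only [e] at h
  rw [sum_coe_sort (Icc 1 N) (fun n => ‖a n‖ ^ 2),
    sum_coe_sort (Icc 1 N) (fun n => ‖a n‖ ^ 2 / Real.log (1 + 1 / (n : ℝ)))] at h
  refine h.trans (mul_le_mul_of_nonneg_left (sum_le_sum fun n hn => ?_) (by positivity))
  rw [div_eq_mul_one_div, mul_comm]
  exact mul_le_mul_of_nonneg_right (inv_log_gap_le (mem_Icc.1 hn).1) (sq_nonneg _)

omit [Fintype ι] in
/-- The partial sums of `ζ` on the critical line. -/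
theorem mean_value_zeta_sum (N : ℕ) (u v : ℝ) :
    |(∫ t in u..v, ‖∑ n ∈ Icc 1 N, (n : ℂ) ^ (-(1 / 2 + I * (t : ℂ)))‖ ^ 2) -
        (v - u) * ∑ n ∈ Icc 1 N, 1 / (n : ℝ)| ≤ 6 * π * N := by
  have h := mean_value_dirichlet (fun n => (n : ℂ) ^ (-(1 / 2 : ℂ))) N u v
  have e : ∀ t : ℝ, ∑ n ∈ Icc 1 N, (n : ℂ) ^ (-(1 / 2 + I * (t : ℂ))) =
      ∑ n ∈ Icc 1 N, (n : ℂ) ^ (-(1 / 2 : ℂ)) * (n : ℂ) ^ (-(I * (t : ℂ))) := fun t =>
    sum_congr rfl fun n hn => by
      rw [neg_add, Complex.cpow_add _ _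
        (Nat.cast_ne_zero.2 (Nat.one_le_iff_ne_zero.1 (mem_Icc.1 hn).1))]
  have hn : ∀ n ∈ Icc 1 N, ‖(n : ℂ) ^ (-(1 / 2 : ℂ))‖ ^ 2 = 1 / (n : ℝ) := fun n hn => by
    have h0 : (0 : ℝ) ≤ n := Nat.cast_nonneg n
    rw [Complex.norm_natCast_cpow_of_pos (mem_Icc.1 hn).1, ← Real.rpow_natCast,
      ← Real.rpow_mul h0]
    norm_num [Real.rpow_neg_one]
  simp only [← e] at h
  rw [sum_congr rfl hn] at h
  refine h.trans ?_
  have h2 : ∑ n ∈ Icc 1 N, ((n : ℝ) + 1 / 2) * ‖(n : ℂ) ^ (-(1 / 2 : ℂ))‖ ^ 2 ≤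
      ∑ _n ∈ Icc 1 N, (3 / 2 : ℝ) := sum_le_sum fun n hn' => by
    have h1 : (1 : ℝ) ≤ n := by exact_mod_cast (mem_Icc.1 hn').1
    rw [hn n hn', mul_one_div, div_le_iff₀ (by linarith)]
    linarith
  refine (mul_le_mul_of_nonneg_left h2 (by positivity)).trans (le_of_eq ?_)
  rw [sum_const, Nat.card_Icc, nsmul_eq_mul, Nat.add_sub_cancel]
  ring

end FA.MeanValue
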