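import Fermat.Agent.MeanValue.Kernels
import Fermat.Agent.ThreePrimes.Circle

/-!
# The large sieve inequality with constant `N + 1 / δ`

By duality and Hilbert's inequality modulo `1` (Montgomery–Vaughan).
-/

set_option autoImplicit false

noncomputable section

namespace FA.MeanValue

open Finset Complex
open FA.ThreePrimes (eAdd nearDist arcCentres centre)
open scoped Real ComplexConjugate

/-- A sum over a window of integers. -/
theorem sum_intWindow (f : ℤ → ℂ) (M : ℤ) (N : ℕ) :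
    ∑ n ∈ Ioc M (M + N), f n = ∑ k ∈ range N, f (M + 1 + k) := by
  refine sum_nbij' (fun n => (n - M - 1).toNat) (fun k => M + 1 + k) ?_ ?_ ?_ ?_ ?_
  · intro n hn
    simp only [mem_Ioc, mem_range] at hn ⊢
    omega
  · intro k hk
    simp only [mem_Ioc, mem_range] at hk ⊢
    omega
  · intro n hn
    simp only [mem_Ioc] at hn
    omega
  · intro k _
    omega
  · intro n hn
    rw [mem_Ioc] at hn
    congr 1
    omega

/-- `e (d / 2) - e (-d / 2) = 2 i sin (π d)`. -/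
theorem eAdd_half_sub (d : ℝ) :
    eAdd (d / 2) - eAdd (-(d / 2)) = 2 * I * (Real.sin (π * d) : ℂ) := by
  rw [← ThreePrimes.conj_eAdd, Complex.sub_conj]
  rw [eAdd, Complex.exp_ofReal_mul_I_im, show 2 * π * (d / 2) = π * d by ring]
  push_cast
  ring

/-- The geometric sum over a window. -/
theorem geom_window (M : ℤ) (N : ℕ) (d : ℝ) :
    (2 * I * (Real.sin (π * d) : ℂ)) * ∑ n ∈ Ioc M (M + N), eAdd ((n : ℝ) * d) =
      eAdd (((M : ℝ) + N + 1 / 2) * d) - eAdd (((M : ℝ) + 1 / 2) * d) := by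
  rw [sum_intWindow (fun n => eAdd ((n : ℝ) * d)), mul_sum, ← eAdd_half_sub]
  have e : ∀ k : ℕ, (eAdd (d / 2) - eAdd (-(d / 2))) * eAdd (((M + 1 + k : ℤ) : ℝ) * d) =
      (fun j : ℕ => eAdd (((M : ℝ) + j + 1 / 2) * d)) (k + 1) -
        (fun j : ℕ => eAdd (((M : ℝ) + j + 1 / 2) * d)) k := fun k => by
    rw [sub_mul, ← ThreePrimes.eAdd_add, ← ThreePrimes.eAdd_add]
    push_cast
    ring_nf
  rw [sum_congr rfl fun k _ => e k, sum_range_sub fun j : ℕ => eAdd (((M : ℝ) + j + 1 / 2) * d)]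
  simp

variable {ι : Type*} [Fintype ι]

/-- **The dual large sieve inequality.** -/
theorem dual_large_sieve {x : ι → ℝ} {δ : ℝ} (hδ : 0 < δ)
    (hgap : ∀ r s, r ≠ s → δ ≤ nearDist (x r - x s)) (M : ℤ) (N : ℕ) (z : ι → ℂ) :
    ∑ n ∈ Ioc M (M + N), ‖∑ r, z r * eAdd ((n : ℝ) * x r)‖ ^ 2 ≤
      ((N : ℝ) + 1 / δ) * ∑ r, ‖z r‖ ^ 2 := by
  classical
  obtain ⟨α, hα⟩ : ∃ α : ℝ, α = (M : ℝ) + 1 / 2 := ⟨_, rfl⟩
  obtain ⟨β, hβ⟩ : ∃ β : ℝ, β = (M : ℝ) + N + 1 / 2 := ⟨_, rfl⟩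
  have hpair : ∀ r s, ∑ n ∈ Ioc M (M + N), eAdd ((n : ℝ) * x r) * conj (eAdd ((n : ℝ) * x s)) =
      (if r = s then (N : ℂ) else 0) + 1 / (2 * I) *
        (eAdd (β * x r) * conj (eAdd (β * x s)) / ((Real.sin (π * (x r - x s)) : ℝ) : ℂ) -
          eAdd (α * x r) * conj (eAdd (α * x s)) / ((Real.sin (π * (x r - x s)) : ℝ) : ℂ)) := by
    intro r s
    have e : ∀ c : ℝ, eAdd (c * x r) * conj (eAdd (c * x s)) = eAdd (c * (x r - x s)) :=
      fun c => by rw [ThreePrimes.conj_eAdd, ← ThreePrimes.eAdd_add]; ring_nf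
    simp only [e]
    rcases eq_or_ne r s with rfl | hne
    · simp [ThreePrimes.eAdd]
    have h := geom_window M N (x r - x s)
    rw [← hα, ← hβ] at h
    have hs : ((Real.sin (π * (x r - x s)) : ℝ) : ℂ) ≠ 0 :=
      Complex.ofReal_ne_zero.2 (sin_pi_mul_ne_zero (hδ.trans_le (hgap r s hne)))
    have h2 : ∑ n ∈ Ioc M (M + N), eAdd ((n : ℝ) * (x r - x s)) =
        (eAdd (β * (x r - x s)) - eAdd (α * (x r - x s))) /
          (2 * I * ((Real.sin (π * (x r - x s)) : ℝ) : ℂ)) := by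
      rw [eq_div_iff (mul_ne_zero (mul_ne_zero two_ne_zero I_ne_zero) hs), mul_comm]
      exact h
    rw [if_neg hne, zero_add, h2]
    ring
  have hid : ((∑ n ∈ Ioc M (M + N), ‖∑ r, z r * eAdd ((n : ℝ) * x r)‖ ^ 2 : ℝ) : ℂ) =
      ((N * ∑ r, ‖z r‖ ^ 2 : ℝ) : ℂ) + 1 / (2 * I) *
        ((∑ r, ∑ s, z r * eAdd (β * x r) * conj (z s * eAdd (β * x s)) /
            ((Real.sin (π * (x r - x s)) : ℝ) : ℂ)) -
          ∑ r, ∑ s, z r * eAdd (α * x r) * conj (z s * eAdd (α * x s)) /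
            ((Real.sin (π * (x r - x s)) : ℝ) : ℂ)) := by
    have e1 : ((∑ n ∈ Ioc M (M + N), ‖∑ r, z r * eAdd ((n : ℝ) * x r)‖ ^ 2 : ℝ) : ℂ) =
        ∑ r, ∑ s, z r * conj (z s) *
          ∑ n ∈ Ioc M (M + N), eAdd ((n : ℝ) * x r) * conj (eAdd ((n : ℝ) * x s)) := by
      simp only [Complex.ofReal_sum, Complex.ofReal_pow, ← Complex.mul_conj', map_sum, map_mul,
        sum_mul, mul_sum]
      refine Eq.trans ?_ sum_comm
      rw [sum_comm]
      refine sum_congr rfl fun r _ => ?_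
      rw [sum_comm]
      exact sum_congr rfl fun s _ => sum_congr rfl fun n _ => by ring
    have e3 : (((N : ℝ) * ∑ r, ‖z r‖ ^ 2 : ℝ) : ℂ) =
        ∑ r, ∑ s, z r * conj (z s) * (if r = s then (N : ℂ) else 0) := by
      simp only [mul_ite, mul_zero, sum_ite_eq, mem_univ, if_true, Complex.mul_conj']
      push_cast
      rw [mul_sum]
      exact sum_congr rfl fun r _ => mul_comm _ _
    rw [e1, e3, ← sum_sub_distrib, mul_sum, ← sum_add_distrib]
    refine sum_congr rfl fun r _ => ?_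
    rw [← sum_sub_distrib, mul_sum, ← sum_add_distrib]
    refine sum_congr rfl fun s _ => ?_
    rw [hpair, map_mul, map_mul]
    ring
  have hb : ∀ c : ℝ, ‖∑ r, ∑ s, z r * eAdd (c * x r) * conj (z s * eAdd (c * x s)) /
      ((Real.sin (π * (x r - x s)) : ℝ) : ℂ)‖ ≤ 1 / δ * ∑ r, ‖z r‖ ^ 2 := fun c => by
    refine (hilbert_periodic_le hδ hgap (fun r => z r * eAdd (c * x r))
      (fun r => z r * eAdd (c * x r))).trans (le_of_eq ?_)
    simp only [norm_mul, ThreePrimes.norm_eAdd, mul_one]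
    rw [Real.mul_self_sqrt (sum_nonneg fun r _ => sq_nonneg _)]
  have h := congr_arg norm hid
  rw [Complex.norm_real, Real.norm_of_nonneg (sum_nonneg fun n _ => sq_nonneg _)] at h
  rw [h]
  refine (norm_add_le _ _).trans ?_
  rw [Complex.norm_real, Real.norm_of_nonneg (mul_nonneg (Nat.cast_nonneg N)
    (sum_nonneg fun r _ => sq_nonneg _)), norm_mul, add_mul]
  refine add_le_add le_rfl ?_
  refine (mul_le_mul_of_nonneg_left ((norm_sub_le _ _).trans (add_le_add (hb β) (hb α)))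
    (norm_nonneg _)).trans (le_of_eq ?_)
  rw [norm_div, norm_one, norm_mul, Complex.norm_two, Complex.norm_I]
  ring

/-- **The large sieve inequality** of Montgomery and Vaughan. -/
theorem large_sieve_spaced {x : ι → ℝ} {δ : ℝ} (hδ : 0 < δ)
    (hgap : ∀ r s, r ≠ s → δ ≤ nearDist (x r - x s)) (M : ℤ) (N : ℕ) (a : ℤ → ℂ) :
    ∑ r, ‖∑ n ∈ Ioc M (M + N), a n * eAdd ((n : ℝ) * x r)‖ ^ 2 ≤
      ((N : ℝ) + 1 / δ) * ∑ n ∈ Ioc M (M + N), ‖a n‖ ^ 2 := by
  obtain ⟨S, hS⟩ : ∃ S : ι → ℂ, S = fun r => ∑ n ∈ Ioc M (M + N), a n * eAdd ((n : ℝ) * x r) :=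
    ⟨_, rfl⟩
  obtain ⟨L, hL⟩ : ∃ L, L = ∑ r, ‖S r‖ ^ 2 := ⟨_, rfl⟩
  obtain ⟨A, hA⟩ : ∃ A, A = ∑ n ∈ Ioc M (M + N), ‖a n‖ ^ 2 := ⟨_, rfl⟩
  have hL0 : 0 ≤ L := hL ▸ sum_nonneg fun r _ => sq_nonneg _
  have hA0 : 0 ≤ A := hA ▸ sum_nonneg fun n _ => sq_nonneg _
  have h1 : (L : ℂ) = ∑ n ∈ Ioc M (M + N), a n * ∑ r, conj (S r) * eAdd ((n : ℝ) * x r) := by
    rw [hL, Complex.ofReal_sum]
    simp only [Complex.ofReal_pow, ← Complex.mul_conj', mul_sum]
    rw [sum_comm]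
    refine sum_congr rfl fun r _ => ?_
    conv_lhs => rw [mul_comm, hS]; simp only
    rw [mul_sum]
    refine sum_congr rfl fun n _ => ?_
    rw [hS]
    ring
  have h2 : L ≤ √A * √(((N : ℝ) + 1 / δ) * L) := by
    have h := congr_arg norm h1
    rw [Complex.norm_real, Real.norm_of_nonneg hL0] at h
    refine le_of_eq_of_le h ((norm_sum_le _ _).trans ?_)
    simp only [norm_mul]
    refine (Real.sum_mul_le_sqrt_mul_sqrt _ _ _).trans ?_
    rw [← hA]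
    refine mul_le_mul_of_nonneg_left (Real.sqrt_le_sqrt ?_) (Real.sqrt_nonneg _)
    refine (dual_large_sieve hδ hgap M N fun r => conj (S r)).trans (le_of_eq ?_)
    simp only [Complex.norm_conj, hL]
  have hc : 0 ≤ (N : ℝ) + 1 / δ := by positivity
  have h3 : L ^ 2 ≤ A * (((N : ℝ) + 1 / δ) * L) := by
    refine (pow_le_pow_left₀ hL0 h2 2).trans (le_of_eq ?_)
    rw [mul_pow, Real.sq_sqrt hA0, Real.sq_sqrt (mul_nonneg hc hL0)]
  have : L ≤ ((N : ℝ) + 1 / δ) * A := by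
    rcases hL0.eq_or_lt with h0 | h0
    · rw [← h0]
      exact mul_nonneg hc hA0
    · nlinarith
  rw [hL, hS, hA] at this
  exact this

omit [Fintype ι] in
/-- **The large sieve at the Farey fractions**, with constant `N + Q ^ 2`. -/
theorem large_sieve_farey (Q M N : ℕ) (a : ℕ → ℂ) :
    ∑ z ∈ arcCentres Q, ‖∑ n ∈ Ioc M (M + N), a n * eAdd ((n : ℝ) * centre z)‖ ^ 2 ≤
      ((N : ℝ) + (Q : ℝ) * Q) * ∑ n ∈ Ioc M (M + N), ‖a n‖ ^ 2 := by
  rcases Nat.eq_zero_or_pos Q with rfl | hQ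
  · rw [show arcCentres 0 = ∅ from Finset.eq_empty_of_forall_notMem fun z hz => by
      rw [ThreePrimes.mem_arcCentres] at hz; omega, sum_empty]
    positivity
  have hQ' : (0 : ℝ) < (Q : ℝ) * Q := by positivity
  have h := large_sieve_spaced (x := fun z : arcCentres Q => centre (z : Σ _ : ℕ, ℕ))
    (δ := 1 / ((Q : ℝ) * Q)) (one_div_pos.2 hQ')
    (fun r s hne => ThreePrimes.inv_mul_le_nearDist_centre r.2 s.2 fun e => hne (Subtype.ext e))
    (M : ℤ) N fun n => a n.toNat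
  have e : ∀ f : ℕ → ℂ,
      ∑ n ∈ Ioc (M : ℤ) ((M : ℤ) + N), f n.toNat = ∑ n ∈ Ioc M (M + N), f n := fun f => by
    refine sum_nbij' Int.toNat (fun n => (n : ℤ)) ?_ ?_ ?_ ?_ (fun _ _ => rfl)
    · intro n hn
      simp only [mem_Ioc] at hn ⊢
      omega
    · intro n hn
      simp only [mem_Ioc] at hn ⊢
      omega
    · intro n hn
      simp only [mem_Ioc] at hn
      omega
    · intro n _
      exact Int.toNat_natCast n
  have e1 : ∀ y : ℝ, ∑ n ∈ Ioc (M : ℤ) ((M : ℤ) + N), a n.toNat * eAdd ((n : ℝ) * y) =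
      ∑ n ∈ Ioc M (M + N), a n * eAdd ((n : ℝ) * y) := fun y => by
    rw [← e fun n => a n * eAdd ((n : ℝ) * y)]
    refine sum_congr rfl fun n hn => ?_
    have hz : ((n.toNat : ℕ) : ℤ) = n := Int.toNat_of_nonneg (by rw [mem_Ioc] at hn; omega)
    have : ((n.toNat : ℕ) : ℝ) = (n : ℝ) := by exact_mod_cast hz
    rw [this]
  have e2 : ∑ n ∈ Ioc (M : ℤ) ((M : ℤ) + N), ‖a n.toNat‖ ^ 2 =
      ∑ n ∈ Ioc M (M + N), ‖a n‖ ^ 2 := by
    have := e fun n => ((‖a n‖ ^ 2 : ℝ) : ℂ)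
    exact_mod_cast this
  simp only [e1, e2, one_div_one_div] at h
  rwa [sum_coe_sort (arcCentres Q)
    (fun z => ‖∑ n ∈ Ioc M (M + N), a n * eAdd ((n : ℝ) * centre z)‖ ^ 2)] at h

end FA.MeanValue
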