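import Mathlib

/-!
# Bilinear forms with a skew kernel satisfying a three point identity

If `K r s * K t s = K r t * (L t s - L r s)` for distinct `r, s, t`, the spectral radius of the
skew form `K` with weights `w` is controlled by `∑ w s * K r s ^ 2` and by the form `K * L`
(Montgomery–Vaughan).
-/

set_option autoImplicit false

noncomputable section

namespace FA.MeanValue

open Finset Complex Matrix
open scoped ComplexConjugate

variable {ι : Type*}

/-- A kernel `K` with a companion `L`. -/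
structure SkewPair (K L : ι → ι → ℝ) : Prop where
  skew : ∀ r s, K s r = -K r s
  skew' : ∀ r s, L s r = -L r s
  triple : ∀ r s t, r ≠ s → t ≠ s → r ≠ t → K r s * K t s = K r t * (L t s - L r s)

namespace SkewPair

variable {K L : ι → ι → ℝ}

theorem diag (h : SkewPair K L) (r : ι) : K r r = 0 := by linarith [h.skew r r]

theorem diag' (h : SkewPair K L) (r : ι) : L r r = 0 := by linarith [h.skew' r r]

variable [Fintype ι]

/-- The Gram matrix of the kernel. -/
theorem gram (h : SkewPair K L) [DecidableEq ι] (w : ι → ℝ) (r t : ι) :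
    ∑ s, w s * (K r s * K t s) = (if r = t then ∑ s, w s * K r s ^ 2
      else K r t * L r t * (w r + w t)) +
      (K r t * ∑ s, w s * L t s - K r t * ∑ s, w s * L r s) := by
  rcases eq_or_ne r t with rfl | hne
  · simp [pow_two, h.diag]
  rw [if_neg hne]
  have e : ∀ s, w s * (K r s * K t s) = K r t * (w s * L t s - w s * L r s) +
      ((if s = r then w r * (K r t * L r t) else 0) +
        (if s = t then w t * (K r t * L r t) else 0)) := by
    intro s
    rcases eq_or_ne s r with rfl | h1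
    · simp [hne, h.diag, h.diag', h.skew' s t]
      ring
    rcases eq_or_ne s t with rfl | h2
    · simp [h1, h.diag, h.diag']
      ring
    rw [if_neg h1, if_neg h2, add_zero, add_zero, h.triple r s t h1.symm h2.symm hne]
    ring
  rw [sum_congr rfl fun s _ => e s, sum_add_distrib, sum_add_distrib, ← mul_sum,
    sum_sub_distrib, sum_ite_eq', sum_ite_eq', if_pos (mem_univ r), if_pos (mem_univ t)]
  ring

/-- **The identity at an eigenvector.** -/
theorem eigen_identity (h : SkewPair K L) [DecidableEq ι] {w : ι → ℝ} (hw : ∀ r, 0 < w r)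
    (z : ι → ℂ) (μ : ℝ) (heig : ∀ s, ∑ r, (K r s : ℂ) * z r = I * μ * z s / w s) :
    ((μ ^ 2 * ∑ r, ‖z r‖ ^ 2 / w r : ℝ) : ℂ) = ∑ r, ∑ t, z r * conj (z t) *
      ((if r = t then ∑ s, w s * K r s ^ 2 else K r t * L r t * (w r + w t) : ℝ) : ℂ) := by
  obtain ⟨S, hS⟩ : ∃ S : ι → ℝ, S = fun t => ∑ s, w s * L t s := ⟨_, rfl⟩
  have h1 : ((μ ^ 2 * ∑ r, ‖z r‖ ^ 2 / w r : ℝ) : ℂ) =
      ∑ s, (w s : ℂ) * ((∑ r, (K r s : ℂ) * z r) * conj (∑ r, (K r s : ℂ) * z r)) := by
    push_cast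
    rw [mul_sum]
    refine sum_congr rfl fun s _ => ?_
    have : (w s : ℂ) ≠ 0 := Complex.ofReal_ne_zero.2 (hw s).ne'
    rw [heig s, map_div₀, map_mul, map_mul, Complex.conj_I, Complex.conj_ofReal,
      Complex.conj_ofReal, ← Complex.mul_conj' (z s)]
    field_simp
    linear_combination (μ : ℂ) ^ 2 * z s * conj (z s) * Complex.I_sq
  have h2 : ∑ s, (w s : ℂ) * ((∑ r, (K r s : ℂ) * z r) * conj (∑ r, (K r s : ℂ) * z r)) =
      ∑ r, ∑ t, z r * conj (z t) * ((∑ s, w s * (K r s * K t s) : ℝ) : ℂ) := by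
    simp_rw [map_sum, map_mul, Complex.conj_ofReal, Complex.ofReal_sum, Complex.ofReal_mul,
      sum_mul, mul_sum]
    rw [sum_comm]
    refine sum_congr rfl fun r _ => ?_
    rw [sum_comm]
    exact sum_congr rfl fun t _ => sum_congr rfl fun s _ => by ring
  have h3 : ∑ r, ∑ t, z r * conj (z t) * ((K r t * S t : ℝ) : ℂ) =
      ∑ t, I * μ * z t / w t * (conj (z t) * (S t : ℂ)) := by
    rw [sum_comm]
    refine sum_congr rfl fun t _ => ?_
    rw [← heig t, sum_mul]
    exact sum_congr rfl fun r _ => by push_cast; ring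
  have h4 : ∑ r, ∑ t, z r * conj (z t) * ((K r t * S r : ℝ) : ℂ) =
      ∑ t, I * μ * z t / w t * (conj (z t) * (S t : ℂ)) := by
    refine sum_congr rfl fun r _ => ?_
    have e : ∑ t, conj (z t) * (K r t : ℂ) = I * μ * conj (z r) / w r := by
      have := congr_arg (starRingEnd ℂ) (heig r)
      rw [map_sum, map_div₀, map_mul, map_mul, Complex.conj_I, Complex.conj_ofReal,
        Complex.conj_ofReal] at this
      calc ∑ t, conj (z t) * (K r t : ℂ) = -∑ t, conj ((K t r : ℂ) * z t) := by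
            rw [← sum_neg_distrib]
            refine sum_congr rfl fun t _ => ?_
            rw [map_mul, Complex.conj_ofReal, h.skew r t]
            push_cast
            ring
        _ = _ := by rw [this]; ring
    calc ∑ t, z r * conj (z t) * ((K r t * S r : ℝ) : ℂ) =
          z r * (S r : ℂ) * ∑ t, conj (z t) * (K r t : ℂ) := by
          rw [mul_sum]
          exact sum_congr rfl fun t _ => by push_cast; ring
      _ = _ := by rw [e]; ring
  rw [h1, h2]
  simp_rw [h.gram w, Complex.ofReal_add, Complex.ofReal_sub, mul_add, mul_sub, sum_add_distrib,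
    sum_sub_distrib]
  simp only [hS] at h3 h4
  rw [h3, h4, sub_self, add_zero]

end SkewPair

variable [Fintype ι]

/-- A Hermitian matrix all whose eigenvalues are at most `C` has bilinear form at most `C`. -/
theorem norm_hermitian_form_le {H : Matrix ι ι ℂ} (hH : H.IsHermitian) {C : ℝ}
    (heig : ∀ (v : ι → ℂ) (μ : ℝ), v ≠ 0 → H.mulVec v = (μ : ℂ) • v → |μ| ≤ C)
    (x y : ι → ℂ) :
    ‖∑ s, conj (y s) * ∑ r, H s r * x r‖ ≤
      C * (√(∑ r, ‖x r‖ ^ 2) * √(∑ r, ‖y r‖ ^ 2)) := by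
  classical
  have hT : (Matrix.toEuclideanLin H).IsSymmetric := Matrix.isSymmetric_toEuclideanLin_iff.2 hH
  obtain ⟨b, hb⟩ : ∃ b, b = hT.eigenvectorBasis (finrank_euclideanSpace (ι := ι)) := ⟨_, rfl⟩
  obtain ⟨μ, hμ⟩ : ∃ μ, μ = hT.eigenvalues (finrank_euclideanSpace (ι := ι)) := ⟨_, rfl⟩
  have hC : ∀ i, |μ i| ≤ C := by
    intro i
    refine heig (WithLp.ofLp (b i)) (μ i) (fun hv => b.orthonormal.ne_zero i ?_) ?_
    · rw [← WithLp.toLp_ofLp 2 (b i), hv]
      rfl
    · have := congr_arg WithLp.ofLp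
        (hT.apply_eigenvectorBasis (finrank_euclideanSpace (ι := ι)) i)
      rw [hb, hμ]
      exact this
  obtain ⟨X, hX⟩ : ∃ X, X = WithLp.toLp 2 x := ⟨_, rfl⟩
  obtain ⟨Y, hY⟩ : ∃ Y, Y = WithLp.toLp 2 y := ⟨_, rfl⟩
  have h1 : ∑ s, conj (y s) * ∑ r, H s r * x r =
      ∑ i, conj (b.repr Y i) * ((μ i : ℂ) * b.repr X i) := by
    have e1 : inner ℂ Y (Matrix.toEuclideanLin H X) = ∑ s, conj (y s) * ∑ r, H s r * x r := by
      rw [PiLp.inner_apply, hX, hY]
      refine sum_congr rfl fun s _ => ?_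
      simp [Matrix.mulVec, dotProduct, mul_comm]
    rw [← e1, ← b.repr.inner_map_map, PiLp.inner_apply]
    refine sum_congr rfl fun i _ => ?_
    rw [hb, hμ, hT.eigenvectorBasis_apply_self_apply]
    simp [mul_comm]
  have h2 : ∀ v : ι → ℂ, ∑ i, ‖b.repr (WithLp.toLp 2 v) i‖ ^ 2 = ∑ r, ‖v r‖ ^ 2 := by
    intro v
    rw [← EuclideanSpace.norm_sq_eq, b.repr.norm_map, EuclideanSpace.norm_sq_eq]
  rw [h1, ← h2 x, ← h2 y, ← hX, ← hY]
  refine (norm_sum_le _ _).trans ?_
  refine le_trans (sum_le_sum (g := fun i => C * (‖b.repr X i‖ * ‖b.repr Y i‖)) fun i _ => ?_) ?_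
  · rw [norm_mul, norm_mul, Complex.norm_conj, Complex.norm_real, Real.norm_eq_abs]
    nlinarith [mul_le_mul_of_nonneg_right (hC i)
      (mul_nonneg (norm_nonneg (b.repr X i)) (norm_nonneg (b.repr Y i)))]
  · rw [← mul_sum]
    rcases isEmpty_or_nonempty ι with he | he
    · have : Fintype.card ι = 0 := Fintype.card_eq_zero
      have : IsEmpty (Fin (Fintype.card ι)) := by rw [this]; infer_instance
      simp
    · have : 0 ≤ C := (abs_nonneg _).trans (hC ⟨0, Fintype.card_pos⟩)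
      exact mul_le_mul_of_nonneg_left (Real.sum_mul_le_sqrt_mul_sqrt _ _ _) this

/-- **The criterion of Montgomery and Vaughan.** -/
theorem SkewPair.norm_form_le {K L : ι → ι → ℝ} (h : SkewPair K L) {w : ι → ℝ}
    (hw : ∀ r, 0 < w r) {C : ℝ} (hC : 0 ≤ C)
    (hbd : ∀ a : ι → ℝ, (∀ r, 0 ≤ a r) → ∑ r, a r ^ 2 * ∑ s, w s * K r s ^ 2 +
      ∑ r, ∑ t, a r * a t * (|K r t * L r t| * (w r + w t)) ≤ C ^ 2 * ∑ r, a r ^ 2 / w r)
    (x y : ι → ℂ) :
    ‖∑ r, ∑ s, x r * conj (y s) * (K r s : ℂ)‖ ≤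
      C * (√(∑ r, ‖x r‖ ^ 2 / w r) * √(∑ r, ‖y r‖ ^ 2 / w r)) := by
  classical
  obtain ⟨H, hH⟩ : ∃ H : Matrix ι ι ℂ,
      H = Matrix.of fun s r => I * ((√(w s) * K r s * √(w r) : ℝ) : ℂ) := ⟨_, rfl⟩
  have hHerm : H.IsHermitian := by
    refine Matrix.IsHermitian.ext fun s r => ?_
    rw [hH]
    simp only [Matrix.of_apply, Complex.star_def, map_mul, Complex.conj_I, Complex.conj_ofReal]
    rw [h.skew r s]
    push_cast
    ring
  have heig : ∀ (v : ι → ℂ) (μ : ℝ), v ≠ 0 → H.mulVec v = (μ : ℂ) • v → |μ| ≤ C := by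
    intro v μ hv hμ
    obtain ⟨z, hz⟩ : ∃ z : ι → ℂ, z = fun r => (√(w r) : ℂ) * v r := ⟨_, rfl⟩
    have he : ∀ s, ∑ r, (K r s : ℂ) * z r = I * ((-μ : ℝ) : ℂ) * z s / w s := by
      intro s
      have hs : (√(w s) : ℂ) ≠ 0 := Complex.ofReal_ne_zero.2 (Real.sqrt_ne_zero'.2 (hw s))
      have hws : (w s : ℂ) ≠ 0 := Complex.ofReal_ne_zero.2 (hw s).ne'
      have hsq : (√(w s) : ℂ) * √(w s) = w s := by
        rw [← Complex.ofReal_mul, Real.mul_self_sqrt (hw s).le]
      have := congr_fun hμ s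
      rw [hH] at this
      simp only [Matrix.mulVec, dotProduct, Matrix.of_apply, Pi.smul_apply, smul_eq_mul] at this
      have e : ∑ r, I * ((√(w s) * K r s * √(w r) : ℝ) : ℂ) * v r =
          I * (√(w s) : ℂ) * ∑ r, (K r s : ℂ) * z r := by
        rw [mul_sum, hz]
        exact sum_congr rfl fun r _ => by push_cast; ring
      rw [e] at this
      rw [eq_div_iff hws, hz]
      simp only [Complex.ofReal_neg]
      have h2 : (√(w s) : ℂ) * (I * √(w s) * ∑ r, (K r s : ℂ) * z r) =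
          √(w s) * (μ * v s) := by rw [this]
      rw [hz] at h2
      linear_combination (-I) * h2 +
        (-(∑ r, (K r s : ℂ) * ((√(w r) : ℂ) * v r))) * hsq +
        ((√(w s) : ℂ) * √(w s) * ∑ r, (K r s : ℂ) * ((√(w r) : ℂ) * v r)) * Complex.I_sq
    have hW : 0 < ∑ r, ‖z r‖ ^ 2 / w r := by
      obtain ⟨r, hr⟩ := Function.ne_iff.1 hv
      refine sum_pos' (fun i _ => div_nonneg (sq_nonneg _) (hw i).le) ⟨r, mem_univ r, ?_⟩
      refine div_pos (pow_pos (norm_pos_iff.2 ?_) 2) (hw r)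
      rw [hz]
      exact mul_ne_zero (Complex.ofReal_ne_zero.2 (Real.sqrt_ne_zero'.2 (hw r))) hr
    have hid := congr_arg norm (h.eigen_identity hw z (-μ) he)
    rw [Complex.norm_real, Real.norm_of_nonneg (mul_nonneg (sq_nonneg _) hW.le), neg_sq] at hid
    have hb := hbd (fun r => ‖z r‖) fun r => norm_nonneg _
    have hle : μ ^ 2 * ∑ r, ‖z r‖ ^ 2 / w r ≤ C ^ 2 * ∑ r, ‖z r‖ ^ 2 / w r := by
      refine le_trans ?_ hb
      rw [hid, ← sum_add_distrib]
      refine (norm_sum_le _ _).trans (sum_le_sum fun r _ => ?_)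
      refine (norm_sum_le _ _).trans ?_
      have e : ‖z r‖ ^ 2 * ∑ s, w s * K r s ^ 2 =
          ∑ t, (if r = t then ‖z r‖ ^ 2 * ∑ s, w s * K r s ^ 2 else 0) := by simp
      rw [e, ← sum_add_distrib]
      refine sum_le_sum fun t _ => ?_
      rw [norm_mul, norm_mul, Complex.norm_conj, Complex.norm_real, Real.norm_eq_abs]
      rcases eq_or_ne r t with rfl | hne
      · rw [if_pos rfl, if_pos rfl, abs_of_nonneg
          (sum_nonneg fun s _ => mul_nonneg (hw s).le (sq_nonneg _)), h.diag]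
        simp [pow_two]
      · rw [if_neg hne, if_neg hne, zero_add, abs_mul, abs_of_pos (add_pos (hw r) (hw t))]
    exact abs_le_of_sq_le_sq (le_of_mul_le_mul_right hle hW) hC
  have e : ∑ r, ∑ s, x r * conj (y s) * (K r s : ℂ) =
      -I * ∑ s, conj (y s / (√(w s) : ℂ)) * ∑ r, H s r * (x r / (√(w r) : ℂ)) := by
    rw [sum_comm, mul_sum]
    refine sum_congr rfl fun s _ => ?_
    rw [mul_sum, mul_sum]
    refine sum_congr rfl fun r _ => ?_
    have hs : (√(w s) : ℂ) ≠ 0 := Complex.ofReal_ne_zero.2 (Real.sqrt_ne_zero'.2 (hw s))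
    have hr : (√(w r) : ℂ) ≠ 0 := Complex.ofReal_ne_zero.2 (Real.sqrt_ne_zero'.2 (hw r))
    rw [hH, map_div₀, Complex.conj_ofReal]
    simp only [Matrix.of_apply, Complex.ofReal_mul]
    field_simp
    linear_combination (x r * conj (y s) * (K r s : ℂ)) * Complex.I_sq
  have e2 : ∀ v : ι → ℂ,
      ∑ r, ‖v r / (√(w r) : ℂ)‖ ^ 2 = ∑ r, ‖v r‖ ^ 2 / w r := fun v =>
    sum_congr rfl fun r _ => by
      rw [norm_div, Complex.norm_real, Real.norm_of_nonneg (Real.sqrt_nonneg _), div_pow,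
        Real.sq_sqrt (hw r).le]
  rw [e, norm_mul, norm_neg, Complex.norm_I, one_mul, ← e2 x, ← e2 y]
  exact norm_hermitian_form_le hHerm heig _ _

end FA.MeanValue
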