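import Fermat.Agent.MeanValue.Form
import Fermat.Agent.ThreePrimes.Exponential

/-!
# Hilbert's inequality

The forms `∑ x r * conj (y s) / (l r - l s)` for spaced real `l`, with uniform or individual gaps,
and the periodic analogue with `1 / sin (π (l r - l s))`.
-/

set_option autoImplicit false

noncomputable section

namespace FA.MeanValue

open Finset Complex
open FA.ThreePrimes (nearDist)
open scoped Real ComplexConjugate

variable {ι : Type*}

/-- Spaced points on one side of `0`. -/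
theorem sum_inv_sq_le_of_pos {F : Finset ι} {t : ι → ℝ} {δ : ℝ} (hδ : 0 < δ)
    (h0 : ∀ i ∈ F, δ ≤ t i) (hsp : ∀ i ∈ F, ∀ j ∈ F, i ≠ j → δ ≤ |t i - t j|) :
    ∑ i ∈ F, 1 / t i ^ 2 ≤ π ^ 2 / 6 / δ ^ 2 := by
  classical
  obtain ⟨j, hj⟩ : ∃ j : ι → ℕ, j = fun i => ⌊t i / δ⌋₊ := ⟨_, rfl⟩
  have hinj : Set.InjOn j F := by
    intro a ha b hb h
    by_contra hne
    rw [hj] at h
    have ha0 : 0 ≤ t a / δ := div_nonneg (hδ.le.trans (h0 a ha)) hδ.le
    have hb0 : 0 ≤ t b / δ := div_nonneg (hδ.le.trans (h0 b hb)) hδ.le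
    have h1 : |t a / δ - t b / δ| < 1 := by
      have e : (⌊t a / δ⌋₊ : ℝ) = (⌊t b / δ⌋₊ : ℝ) := congr_arg Nat.cast h
      rw [abs_lt]
      constructor <;> linarith [Nat.floor_le ha0, Nat.floor_le hb0,
        Nat.lt_floor_add_one (t a / δ), Nat.lt_floor_add_one (t b / δ)]
    rw [← sub_div, abs_div, abs_of_pos hδ, div_lt_one hδ] at h1
    linarith [hsp a ha b hb hne]
  have hle : ∀ i ∈ F, 1 / t i ^ 2 ≤ 1 / δ ^ 2 * (1 / (j i : ℝ) ^ 2) := by
    intro i hi
    have h1 : 1 ≤ j i := by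
      rw [hj]
      exact Nat.le_floor (by rw [Nat.cast_one, one_le_div hδ]; exact h0 i hi)
    have h2 : (j i : ℝ) * δ ≤ t i := by
      rw [hj]
      exact (le_div_iff₀ hδ).1 (Nat.floor_le (div_nonneg (hδ.le.trans (h0 i hi)) hδ.le))
    have h3 : (1 : ℝ) ≤ j i := by exact_mod_cast h1
    rw [div_mul_div_comm, one_mul]
    refine one_div_le_one_div_of_le (by positivity) ?_
    rw [← mul_pow]
    exact pow_le_pow_left₀ (by positivity) (by linarith [mul_comm δ (j i : ℝ)]) 2
  refine (sum_le_sum hle).trans ?_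
  rw [← mul_sum, ← sum_image (g := j) (f := fun n : ℕ => 1 / (n : ℝ) ^ 2) hinj,
    one_div_mul_eq_div]
  exact div_le_div_of_nonneg_right
    (sum_le_hasSum _ (fun n _ => by positivity) hasSum_zeta_two) (sq_nonneg δ)

/-- **Spaced points on both sides of `0`.** -/
theorem sum_inv_sq_le {F : Finset ι} {t : ι → ℝ} {δ : ℝ} (hδ : 0 < δ)
    (h0 : ∀ i ∈ F, δ ≤ |t i|) (hsp : ∀ i ∈ F, ∀ j ∈ F, i ≠ j → δ ≤ |t i - t j|) :
    ∑ i ∈ F, 1 / t i ^ 2 ≤ π ^ 2 / 3 / δ ^ 2 := by
  classical
  rw [← sum_filter_add_sum_filter_not F (fun i => 0 < t i)]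
  have h1 := sum_inv_sq_le_of_pos (F := F.filter fun i => 0 < t i) hδ
    (fun i hi => by
      have := h0 i (mem_filter.1 hi).1
      rwa [abs_of_pos (mem_filter.1 hi).2] at this)
    (fun i hi j hj => hsp i (mem_filter.1 hi).1 j (mem_filter.1 hj).1)
  have h2 := sum_inv_sq_le_of_pos (F := F.filter fun i => ¬0 < t i) (t := fun i => -t i) hδ
    (fun i hi => by
      have := h0 i (mem_filter.1 hi).1
      rwa [abs_of_nonpos (not_lt.1 (mem_filter.1 hi).2)] at this)
    (fun i hi j hj hne => by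
      rw [neg_sub_neg, abs_sub_comm]
      exact hsp i (mem_filter.1 hi).1 j (mem_filter.1 hj).1 hne)
  simp only [neg_sq] at h2
  refine (add_le_add h1 h2).trans (le_of_eq ?_)
  ring

/-- Disjoint intervals to the right of `a`. -/
theorem sum_width_div_sq_le_aux (F : Finset ι) {x v : ι → ℝ} {a : ℝ} (ha : 0 < a)
    (hv : ∀ i ∈ F, 0 < v i) (hx : ∀ i ∈ F, a ≤ x i - v i / 2)
    (hd : ∀ i ∈ F, ∀ j ∈ F, i ≠ j → (v i + v j) / 2 ≤ |x i - x j|) :
    ∀ B, a ≤ B → (∀ i ∈ F, x i + v i / 2 ≤ B) →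
      ∑ i ∈ F, v i / x i ^ 2 ≤ 1 / a - 1 / B := by
  classical
  revert hv hx hd
  induction F using Finset.induction_on_max_value x with
  | empty =>
    intro _ _ _ B hB _
    rw [sum_empty, sub_nonneg]
    exact one_div_le_one_div_of_le ha hB
  | insert m s hm hmax ih =>
    intro hv hx hd B _ hB
    have hvm := hv m (mem_insert_self m s)
    have hxm := hx m (mem_insert_self m s)
    have hBm := hB m (mem_insert_self m s)
    have h := ih (fun i hi => hv i (mem_insert_of_mem hi))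
      (fun i hi => hx i (mem_insert_of_mem hi))
      (fun i hi j hj => hd i (mem_insert_of_mem hi) j (mem_insert_of_mem hj))
      (x m - v m / 2) hxm fun i hi => by
        have h1 := hd i (mem_insert_of_mem hi) m (mem_insert_self m s)
          (fun e => hm (e ▸ hi))
        rw [abs_of_nonpos (by linarith [hmax i hi])] at h1
        linarith
    rw [sum_insert hm]
    have hp : 0 < x m - v m / 2 := ha.trans_le hxm
    have e : v m / x m ^ 2 ≤ 1 / (x m - v m / 2) - 1 / (x m + v m / 2) := by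
      rw [div_sub_div _ _ hp.ne' (by linarith : (x m + v m / 2) ≠ 0)]
      have : 1 * (x m + v m / 2) - (x m - v m / 2) * 1 = v m := by ring
      rw [this]
      refine div_le_div_of_nonneg_left hvm.le (mul_pos hp (by linarith)) ?_
      nlinarith
    have e2 : 1 / B ≤ 1 / (x m + v m / 2) := one_div_le_one_div_of_le (by linarith) hBm
    linarith

/-- **Disjoint intervals away from `0`.** -/
theorem sum_width_div_sq_le {F : Finset ι} {x v : ι → ℝ} {a : ℝ} (ha : 0 < a)
    (hv : ∀ i ∈ F, 0 < v i) (hx : ∀ i ∈ F, a ≤ x i - v i / 2)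
    (hd : ∀ i ∈ F, ∀ j ∈ F, i ≠ j → (v i + v j) / 2 ≤ |x i - x j|) :
    ∑ i ∈ F, v i / x i ^ 2 ≤ 1 / a := by
  obtain ⟨B, hB⟩ : ∃ B, B = a + ∑ i ∈ F, |x i + v i / 2| := ⟨_, rfl⟩
  have hsum : 0 ≤ ∑ i ∈ F, |x i + v i / 2| := sum_nonneg fun i _ => abs_nonneg _
  have haB : a ≤ B := by linarith
  refine (sum_width_div_sq_le_aux F ha hv hx hd B haB fun i hi => ?_).trans ?_
  · linarith [le_abs_self (x i + v i / 2),
      single_le_sum (f := fun i => |x i + v i / 2|) (fun j _ => abs_nonneg _) hi]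
  · linarith [one_div_nonneg.2 (ha.le.trans haB)]

variable [Fintype ι]

/-- The criterion for constant weights. -/
theorem SkewPair.norm_form_le_of_row {K L : ι → ι → ℝ} (h : SkewPair K L) {C : ℝ} (hC : 0 ≤ C)
    (hrow : ∀ r, ∑ s, (K r s ^ 2 + 2 * |K r s * L r s|) ≤ C ^ 2) (x y : ι → ℂ) :
    ‖∑ r, ∑ s, x r * conj (y s) * (K r s : ℂ)‖ ≤
      C * (√(∑ r, ‖x r‖ ^ 2) * √(∑ r, ‖y r‖ ^ 2)) := by
  have := h.norm_form_le (w := fun _ => 1) (fun _ => one_pos) hC (fun a _ => ?_) x y
  · simpa using this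
  · simp only [one_mul, div_one]
    have h1 : ∑ r, ∑ t, a r * a t * (|K r t * L r t| * (1 + 1)) ≤
        ∑ r, ∑ t, (a r ^ 2 * |K r t * L r t| + a t ^ 2 * |K r t * L r t|) :=
      sum_le_sum fun r _ => sum_le_sum fun t _ => by
        nlinarith [abs_nonneg (K r t * L r t), sq_nonneg (a r - a t),
          mul_nonneg (abs_nonneg (K r t * L r t)) (sq_nonneg (a r - a t))]
    have h2 : ∑ r, ∑ t, a t ^ 2 * |K r t * L r t| = ∑ r, ∑ t, a r ^ 2 * |K r t * L r t| := by
      rw [sum_comm]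
      refine sum_congr rfl fun r _ => sum_congr rfl fun t _ => ?_
      rw [h.skew, h.skew', neg_mul_neg]
    have h3 : ∀ r, a r ^ 2 * ∑ s, (K r s ^ 2 + 2 * |K r s * L r s|) ≤ C ^ 2 * a r ^ 2 :=
      fun r => (mul_le_mul_of_nonneg_left (hrow r) (sq_nonneg _)).trans_eq (mul_comm _ _)
    rw [mul_sum]
    refine le_trans ?_ (sum_le_sum fun r _ => h3 r)
    simp only [sum_add_distrib, mul_add, mul_sum] at h1 ⊢
    rw [h2] at h1
    refine (add_le_add le_rfl h1).trans (le_of_eq ?_)
    congr 1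
    rw [← sum_add_distrib]
    refine sum_congr rfl fun r _ => ?_
    rw [← sum_add_distrib]
    exact sum_congr rfl fun t _ => by ring

omit [Fintype ι] in
/-- The kernel of Hilbert's inequality. -/
theorem skewPair_linear {l : ι → ℝ} (hl : Function.Injective l) :
    SkewPair (fun r s => 1 / (l r - l s)) fun r s => 1 / (l r - l s) where
  skew r s := by rw [← one_div_neg_eq_neg_one_div, neg_sub]
  skew' r s := by rw [← one_div_neg_eq_neg_one_div, neg_sub]
  triple r s t h1 h2 h3 := by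
    have := sub_ne_zero.2 (hl.ne h1)
    have := sub_ne_zero.2 (hl.ne h2)
    have := sub_ne_zero.2 (hl.ne h3)
    field_simp
    ring

omit [Fintype ι] in
/-- Positive gaps separate the frequencies. -/
theorem injective_of_gap {l w : ι → ℝ} (hw : ∀ r, 0 < w r)
    (hgap : ∀ r s, r ≠ s → w r ≤ |l r - l s|) : Function.Injective l := fun r s h => by
  by_contra hne
  have h2 := hgap r s hne
  rw [h, sub_self, abs_zero] at h2
  exact (hw r).not_ge h2

/-- **Hilbert's inequality.** -/
theorem hilbert_le {l : ι → ℝ} {δ : ℝ} (hδ : 0 < δ) (hgap : ∀ r s, r ≠ s → δ ≤ |l r - l s|)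
    (x y : ι → ℂ) :
    ‖∑ r, ∑ s, x r * conj (y s) / ((l r - l s : ℝ) : ℂ)‖ ≤
      π / δ * (√(∑ r, ‖x r‖ ^ 2) * √(∑ r, ‖y r‖ ^ 2)) := by
  classical
  have hl := injective_of_gap (w := fun _ => δ) (fun _ => hδ) hgap
  have h := (skewPair_linear hl).norm_form_le_of_row (div_nonneg Real.pi_pos.le hδ.le)
    (fun r => ?_) x y
  · refine le_of_eq_of_le (congr_arg _ (sum_congr rfl fun r _ => sum_congr rfl fun s _ => ?_)) h
    rw [Complex.ofReal_div, Complex.ofReal_one, mul_one_div]
  · have e : ∀ s, (1 / (l r - l s)) ^ 2 + 2 * |1 / (l r - l s) * (1 / (l r - l s))| =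
        3 * (1 / (l r - l s) ^ 2) := fun s => by
      rw [abs_mul_self, ← sq, one_div_pow]
      ring
    rw [sum_congr rfl fun s _ => e s, ← mul_sum]
    have h2 := sum_inv_sq_le (F := univ.erase r) (t := fun s => l r - l s) hδ
      (fun s hs => hgap r s (ne_of_mem_erase hs).symm)
      (fun s _ u _ hne => by rw [sub_sub_sub_cancel_left]; exact hgap u s hne.symm)
    rw [sum_erase _ (by simp)] at h2
    refine (mul_le_mul_of_nonneg_left h2 zero_le_three).trans (le_of_eq ?_)
    ring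

/-- The weighted row sum. -/
theorem sum_gap_div_sq_le {l w : ι → ℝ} (hw : ∀ r, 0 < w r)
    (hgap : ∀ r s, r ≠ s → w r ≤ |l r - l s|) (r : ι) :
    ∑ s, w s / (l r - l s) ^ 2 ≤ 4 / w r := by
  classical
  have hboth : ∀ {i j : ι}, i ≠ j → (w i + w j) / 2 ≤ |l i - l j| := fun {i j} h => by
    have := hgap i j h
    have h2 := hgap j i h.symm
    rw [abs_sub_comm] at h2
    linarith
  rw [← sum_erase (s := univ) (f := fun s => w s / (l r - l s) ^ 2) (a := r) (by simp),
    ← sum_filter_add_sum_filter_not (univ.erase r) (fun s => l s < l r)]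
  have h1 := sum_width_div_sq_le (F := (univ.erase r).filter fun s => l s < l r)
    (x := fun s => l r - l s) (v := w) (half_pos (hw r)) (fun s _ => hw s)
    (fun s hs => by
      have := hboth (ne_of_mem_erase (mem_filter.1 hs).1).symm
      rw [abs_of_pos (sub_pos.2 (mem_filter.1 hs).2)] at this
      linarith)
    (fun i _ j _ hne => by
      rw [sub_sub_sub_cancel_left, abs_sub_comm]
      exact hboth hne)
  have h2 := sum_width_div_sq_le (F := (univ.erase r).filter fun s => ¬l s < l r)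
    (x := fun s => l s - l r) (v := w) (half_pos (hw r)) (fun s _ => hw s)
    (fun s hs => by
      have := hboth (ne_of_mem_erase (mem_filter.1 hs).1).symm
      rw [abs_of_nonpos (sub_nonpos.2 (not_lt.1 (mem_filter.1 hs).2))] at this
      linarith)
    (fun i _ j _ hne => by rw [sub_sub_sub_cancel_right]; exact hboth hne)
  have e : ∀ s, (l s - l r) ^ 2 = (l r - l s) ^ 2 := fun s => by ring
  simp only [e] at h2
  refine (add_le_add h1 h2).trans (le_of_eq ?_)
  field_simp
  ring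

/-- The symmetric kernel of the weighted inequality. -/
theorem sum_cross_le {l w a : ι → ℝ} (hw : ∀ r, 0 < w r)
    (hgap : ∀ r s, r ≠ s → w r ≤ |l r - l s|) (ha : ∀ r, 0 ≤ a r) :
    ∑ r, ∑ t, a r * a t * (1 / (l r - l t) ^ 2) * w r ≤ 17 * ∑ r, a r ^ 2 / w r := by
  classical
  obtain ⟨k, hk⟩ : ∃ k : ι → ι → ℝ, k = fun r t => 1 / (l r - l t) ^ 2 := ⟨_, rfl⟩
  have hk0 : ∀ r t, 0 ≤ k r t := fun r t => by rw [hk]; positivity
  have hksymm : ∀ r t, k r t = k t r := fun r t => by
    simp only [hk]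
    rw [← neg_sub (l t) (l r), neg_sq]
  have hl := injective_of_gap hw hgap
  have hrow : ∀ r, ∑ t, w t * k r t ≤ 4 / w r := fun r => by
    rw [hk]
    simpa [div_eq_mul_inv] using sum_gap_div_sq_le hw hgap r
  have hdiag : ∀ r, w r ^ 2 * ∑ t, w t * (k r t * k r t) ≤ 4 / w r := by
    intro r
    refine le_trans ?_ (hrow r)
    rw [mul_sum]
    refine sum_le_sum fun t _ => ?_
    rcases eq_or_ne r t with rfl | hne
    · simp [hk]
    have h1 : w r ^ 2 * k r t ≤ 1 := by
      rw [hk, mul_one_div, div_le_one (by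
        have := sub_ne_zero.2 (hl.ne hne)
        positivity), ← sq_abs (l r - l t)]
      exact pow_le_pow_left₀ (hw r).le (hgap r t hne) 2
    calc w r ^ 2 * (w t * (k r t * k r t)) = (w r ^ 2 * k r t) * (w t * k r t) := by ring
      _ ≤ 1 * (w t * k r t) :=
        mul_le_mul_of_nonneg_right h1 (mul_nonneg (hw t).le (hk0 r t))
      _ = w t * k r t := one_mul _
  have hpair : ∀ r u t, r ≠ u → k r t * k u t ≤ 2 * k r u * (k r t + k u t) := by
    intro r u t hne
    rcases eq_or_ne r t with rfl | h1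
    · have := hk0 r u
      have := hk0 u r
      simp [hk]
      positivity
    rcases eq_or_ne u t with rfl | h2
    · have := hk0 r u
      simp [hk]
      positivity
    have := sub_ne_zero.2 (hl.ne hne)
    have := sub_ne_zero.2 (hl.ne h1)
    have := sub_ne_zero.2 (hl.ne h2)
    have hC : (l r - l u) ^ 2 ≤ 2 * ((l r - l t) ^ 2 + (l u - l t) ^ 2) := by
      linarith [sq_nonneg (l r - l t + (l u - l t))]
    have e : 2 * k r u * (k r t + k u t) - k r t * k u t =
        (2 * ((l r - l t) ^ 2 + (l u - l t) ^ 2) - (l r - l u) ^ 2) /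
          ((l r - l t) ^ 2 * (l u - l t) ^ 2 * (l r - l u) ^ 2) := by
      simp only [hk]
      field_simp
      ring
    have h3 : 0 ≤ 2 * k r u * (k r t + k u t) - k r t * k u t := by
      rw [e]
      exact div_nonneg (sub_nonneg.2 hC) (by positivity)
    linarith
  obtain ⟨T, hT⟩ : ∃ T, T = ∑ r, ∑ t, a r * a t * k r t * w r := ⟨_, rfl⟩
  obtain ⟨W, hW⟩ : ∃ W, W = ∑ r, a r ^ 2 / w r := ⟨_, rfl⟩
  have hT0 : 0 ≤ T := hT ▸ sum_nonneg fun r _ => sum_nonneg fun t _ =>
    mul_nonneg (mul_nonneg (mul_nonneg (ha r) (ha t)) (hk0 r t)) (hw r).le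
  have hW0 : 0 ≤ W := hW ▸ sum_nonneg fun r _ => div_nonneg (sq_nonneg _) (hw r).le
  obtain ⟨V, hV⟩ : ∃ V : ι → ℝ, V = fun t => ∑ r, a r * w r * k r t := ⟨_, rfl⟩
  have h1 : ∑ t, w t * V t ^ 2 ≤ 4 * W + 16 * T := by
    have e : ∀ t, w t * V t ^ 2 = ∑ r, ∑ u, a r * a u * w r * w u * (w t * (k r t * k u t)) := by
      intro t
      rw [hV, sq, sum_mul, mul_sum]
      refine sum_congr rfl fun r _ => ?_
      rw [mul_sum, mul_sum]
      exact sum_congr rfl fun u _ => by ring
    rw [sum_congr rfl fun t _ => e t, sum_comm]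
    have hru : ∀ r u, ∑ t, a r * a u * w r * w u * (w t * (k r t * k u t)) ≤
        (if r = u then 4 * (a r ^ 2 / w r) else 0) + 8 * (a r * a u * k r u * w r) +
          8 * (a u * a r * k u r * w u) := by
      intro r u
      have h8 : 0 ≤ 8 * (a r * a u * k r u * w r) + 8 * (a u * a r * k u r * w u) :=
        add_nonneg
          (mul_nonneg (by norm_num) (mul_nonneg (mul_nonneg (mul_nonneg (ha r) (ha u))
            (hk0 r u)) (hw r).le))
          (mul_nonneg (by norm_num) (mul_nonneg (mul_nonneg (mul_nonneg (ha u) (ha r))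
            (hk0 u r)) (hw u).le))
      rw [← mul_sum]
      rcases eq_or_ne r u with rfl | hne
      · rw [if_pos rfl]
        have h2 := mul_le_mul_of_nonneg_left (hdiag r) (sq_nonneg (a r))
        calc a r * a r * w r * w r * ∑ t, w t * (k r t * k r t) =
              a r ^ 2 * (w r ^ 2 * ∑ t, w t * (k r t * k r t)) := by ring
          _ ≤ a r ^ 2 * (4 / w r) := h2
          _ = 4 * (a r ^ 2 / w r) := by ring
          _ ≤ _ := by linarith
      rw [if_neg hne, zero_add]
      have h2 : ∑ t, w t * (k r t * k u t) ≤ 2 * k r u * (4 / w r + 4 / w u) := by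
        refine le_trans (sum_le_sum fun t _ =>
          mul_le_mul_of_nonneg_left (hpair r u t hne) (hw t).le) ?_
        simp_rw [mul_left_comm (w _) (2 * k r u), mul_add]
        rw [sum_add_distrib, ← mul_sum, ← mul_sum]
        have := mul_nonneg zero_le_two (hk0 r u)
        exact add_le_add (mul_le_mul_of_nonneg_left (hrow r) this)
          (mul_le_mul_of_nonneg_left (hrow u) this)
      refine (mul_le_mul_of_nonneg_left h2 (mul_nonneg (mul_nonneg (mul_nonneg (ha r) (ha u))
        (hw r).le) (hw u).le)).trans (le_of_eq ?_)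
      rw [hksymm u r]
      have := (hw r).ne'
      have := (hw u).ne'
      field_simp
      ring
    refine (sum_le_sum (g := fun r => ∑ u, ((if r = u then 4 * (a r ^ 2 / w r) else 0) +
      8 * (a r * a u * k r u * w r) + 8 * (a u * a r * k u r * w u))) fun r _ => ?_).trans
        (le_of_eq ?_)
    · rw [sum_comm]
      exact sum_le_sum fun u _ => hru r u
    · rw [hT, hW]
      simp only [sum_add_distrib, sum_ite_eq, mem_univ, if_true, ← mul_sum]
      rw [sum_comm (f := fun r u => a u * a r * k u r * w u)]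
      ring
  have h2 : T ≤ √W * √(∑ t, w t * V t ^ 2) := by
    have hs : ∀ t, √(w t) ≠ 0 := fun t => Real.sqrt_ne_zero'.2 (hw t)
    have e : T = ∑ t, a t / √(w t) * (√(w t) * V t) := by
      rw [hT, sum_comm, hV]
      refine sum_congr rfl fun t _ => ?_
      have := hs t
      rw [← mul_assoc, div_mul_cancel₀ _ this, mul_sum]
      exact sum_congr rfl fun r _ => by ring
    rw [e, hW]
    refine (Real.sum_mul_le_sqrt_mul_sqrt _ _ _).trans (le_of_eq ?_)
    congr 2 <;> refine sum_congr rfl fun t _ => ?_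
    · rw [div_pow, Real.sq_sqrt (hw t).le]
    · rw [mul_pow, Real.sq_sqrt (hw t).le]
  have h3 : T ^ 2 ≤ W * (4 * W + 16 * T) := by
    refine (pow_le_pow_left₀ hT0 h2 2).trans ?_
    rw [mul_pow, Real.sq_sqrt hW0,
      Real.sq_sqrt (sum_nonneg fun t _ => mul_nonneg (hw t).le (sq_nonneg _))]
    exact mul_le_mul_of_nonneg_left h1 hW0
  have h4 : T ≤ 17 * W := by
    by_contra h
    push Not at h
    nlinarith
  rw [hT, hW, hk] at h4
  exact h4

/-- **The weighted Hilbert inequality of Montgomery and Vaughan.** -/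
theorem hilbert_weighted_le {l w : ι → ℝ} (hw : ∀ r, 0 < w r)
    (hgap : ∀ r s, r ≠ s → w r ≤ |l r - l s|) (x y : ι → ℂ) :
    ‖∑ r, ∑ s, x r * conj (y s) / ((l r - l s : ℝ) : ℂ)‖ ≤
      2 * π * (√(∑ r, ‖x r‖ ^ 2 / w r) * √(∑ r, ‖y r‖ ^ 2 / w r)) := by
  have hl := injective_of_gap hw hgap
  have h := (skewPair_linear hl).norm_form_le hw (by positivity : (0 : ℝ) ≤ 2 * π)
    (fun a ha => ?_) x y
  · refine le_of_eq_of_le (congr_arg _ (sum_congr rfl fun r _ => sum_congr rfl fun s _ => ?_)) h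
    rw [Complex.ofReal_div, Complex.ofReal_one, mul_one_div]
  · have hW : 0 ≤ ∑ r, a r ^ 2 / w r := sum_nonneg fun r _ => div_nonneg (sq_nonneg _) (hw r).le
    have h1 : ∑ r, a r ^ 2 * ∑ s, w s * (1 / (l r - l s)) ^ 2 ≤ 4 * ∑ r, a r ^ 2 / w r := by
      rw [mul_sum]
      refine sum_le_sum fun r _ => ?_
      have := mul_le_mul_of_nonneg_left (sum_gap_div_sq_le hw hgap r) (sq_nonneg (a r))
      simp only [one_div_pow, mul_one_div]
      exact this.trans_eq (by ring)
    have h2 := sum_cross_le hw hgap ha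
    have e : ∑ r, ∑ t, a r * a t *
        (|1 / (l r - l t) * (1 / (l r - l t))| * (w r + w t)) =
        2 * ∑ r, ∑ t, a r * a t * (1 / (l r - l t) ^ 2) * w r := by
      simp only [abs_mul_self, mul_add, sum_add_distrib, two_mul]
      congr 1
      · exact sum_congr rfl fun r _ => sum_congr rfl fun t _ => by rw [← sq, one_div_pow]; ring
      · rw [sum_comm]
        refine sum_congr rfl fun r _ => sum_congr rfl fun t _ => ?_
        rw [← neg_sub (l r) (l t), one_div_neg_eq_neg_one_div, neg_mul_neg,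
          ← sq, one_div_pow]
        ring
    rw [e]
    have h3 : (38 : ℝ) ≤ (2 * π) ^ 2 := by nlinarith [Real.pi_gt_d2]
    nlinarith [mul_le_mul_of_nonneg_right h3 hW]

/-- The elementary inequality behind the periodic kernel. -/
theorem sq_mul_one_add_two_cos_le {y : ℝ} (h0 : 0 ≤ y) (h1 : y ≤ π / 2) :
    y ^ 2 * (1 + 2 * Real.cos y) ≤ 3 * Real.sin y ^ 2 := by
  have hy2 : y ≤ 2 := h1.trans (by linarith [Real.pi_le_four])
  have hs := Real.sin_ge_sub_cube h0
  have hh := Real.sin_ge_sub_cube (show 0 ≤ y / 2 by linarith)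
  have hp : 0 ≤ y - y ^ 3 / 6 := by nlinarith [mul_le_mul hy2 hy2 h0 zero_le_two]
  have hp' : 0 ≤ y / 2 - (y / 2) ^ 3 / 6 := by nlinarith [mul_le_mul hy2 hy2 h0 zero_le_two]
  have hc : Real.cos y = 1 - 2 * Real.sin (y / 2) ^ 2 := by
    have h2 := Real.cos_two_mul (y / 2)
    rw [show 2 * (y / 2) = y by ring, Real.cos_sq'] at h2
    linarith
  have e1 := pow_le_pow_left₀ hp hs 2
  have e2 := pow_le_pow_left₀ hp' hh 2
  nlinarith [mul_le_mul_of_nonneg_left e2 (sq_nonneg y), pow_nonneg h0 8]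

/-- The periodic kernel is dominated by `3 / (π t) ^ 2`, `t` the reduced argument. -/
theorem csc_row_term_le (d : ℝ) :
    (1 / Real.sin (π * d)) ^ 2 +
        2 * |1 / Real.sin (π * d) * (Real.cos (π * d) / Real.sin (π * d))| ≤
      3 / π ^ 2 * (1 / (d - round d) ^ 2) := by
  obtain ⟨t, ht⟩ : ∃ t, t = d - round d := ⟨_, rfl⟩
  have e : π * d = π * t + (round d : ℝ) * π := by rw [ht]; ring
  rw [← ht, e, Real.sin_add_int_mul_pi, Real.cos_add_int_mul_pi]
  have hone : |(-1 : ℝ) ^ round d| = 1 := by rw [abs_zpow, abs_neg, abs_one, one_zpow]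
  have hsq : ((-1 : ℝ) ^ round d) ^ 2 = 1 := by rw [← sq_abs, hone, one_pow]
  have heq : (1 / ((-1 : ℝ) ^ round d * Real.sin (π * t))) ^ 2 +
      2 * |1 / ((-1 : ℝ) ^ round d * Real.sin (π * t)) *
        ((-1 : ℝ) ^ round d * Real.cos (π * t) / ((-1 : ℝ) ^ round d * Real.sin (π * t)))| =
      (1 + 2 * |Real.cos (π * t)|) / Real.sin (π * t) ^ 2 := by
    rw [one_div_pow, mul_pow, hsq, one_mul, div_mul_div_comm, one_mul, abs_div, abs_mul,
      abs_mul, abs_mul, hone, one_mul, one_mul, abs_mul_abs_self, ← sq]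
    ring
  rw [heq]
  rcases eq_or_ne t 0 with h0 | h0
  · simp [h0]
  have hb : |π * t| ≤ π / 2 := by
    rw [abs_mul, abs_of_pos Real.pi_pos]
    nlinarith [Real.pi_pos, ht ▸ abs_sub_round d]
  have hy : 0 < |π * t| := abs_pos.2 (mul_ne_zero Real.pi_ne_zero h0)
  have hcos : |Real.cos (π * t)| = Real.cos |π * t| := by
    rw [Real.cos_abs]
    exact abs_of_nonneg (Real.cos_nonneg_of_mem_Icc ⟨(abs_le.1 hb).1, (abs_le.1 hb).2⟩)
  have hsin : Real.sin (π * t) ^ 2 = Real.sin |π * t| ^ 2 := by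
    rcases abs_choice (π * t) with h | h
    · rw [h]
    · rw [h, Real.sin_neg, neg_sq]
  have h := sq_mul_one_add_two_cos_le hy.le hb
  have hs : 0 < Real.sin |π * t| :=
    Real.sin_pos_of_pos_of_lt_pi hy (hb.trans_lt (by linarith [Real.pi_pos]))
  rw [hcos, hsin, show 3 / π ^ 2 * (1 / t ^ 2) = 3 / |π * t| ^ 2 by rw [sq_abs]; ring,
    div_le_div_iff₀ (pow_pos hs 2) (pow_pos hy 2)]
  linarith

omit [Fintype ι] in
/-- The periodic kernel. -/
theorem skewPair_csc {l : ι → ℝ} (hl : ∀ r s, r ≠ s → Real.sin (π * (l r - l s)) ≠ 0) :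
    SkewPair (fun r s => 1 / Real.sin (π * (l r - l s)))
      fun r s => Real.cos (π * (l r - l s)) / Real.sin (π * (l r - l s)) where
  skew r s := by rw [← neg_sub, mul_neg, Real.sin_neg, one_div_neg_eq_neg_one_div]
  skew' r s := by rw [← neg_sub, mul_neg, Real.sin_neg, Real.cos_neg, div_neg]
  triple r s t h1 h2 h3 := by
    have := hl r s h1
    have := hl t s h2
    have := hl r t h3
    have e : Real.sin (π * (l r - l t)) =
        Real.sin (π * (l r - l s)) * Real.cos (π * (l t - l s)) -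
          Real.cos (π * (l r - l s)) * Real.sin (π * (l t - l s)) := by
      rw [← Real.sin_sub]
      ring_nf
    field_simp
    rw [e]
    ring

omit [Fintype ι] in
/-- Points distinct modulo `1`. -/
theorem sin_pi_mul_ne_zero {d : ℝ} (h : 0 < nearDist d) : Real.sin (π * d) ≠ 0 := by
  intro h0
  obtain ⟨n, hn⟩ := Real.sin_eq_zero_iff.1 h0
  have : d = n := mul_left_cancel₀ Real.pi_ne_zero (by linarith)
  rw [this, ThreePrimes.nearDist, round_intCast, sub_self, abs_zero] at h
  exact lt_irrefl 0 h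

/-- **Hilbert's inequality modulo `1`.** -/
theorem hilbert_periodic_le {l : ι → ℝ} {δ : ℝ} (hδ : 0 < δ)
    (hgap : ∀ r s, r ≠ s → δ ≤ nearDist (l r - l s)) (x y : ι → ℂ) :
    ‖∑ r, ∑ s, x r * conj (y s) / ((Real.sin (π * (l r - l s)) : ℝ) : ℂ)‖ ≤
      1 / δ * (√(∑ r, ‖x r‖ ^ 2) * √(∑ r, ‖y r‖ ^ 2)) := by
  classical
  have hl : ∀ r s, r ≠ s → Real.sin (π * (l r - l s)) ≠ 0 := fun r s h =>
    sin_pi_mul_ne_zero (hδ.trans_le (hgap r s h))
  have h := (skewPair_csc hl).norm_form_le_of_row (one_div_nonneg.2 hδ.le) (fun r => ?_) x y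
  · refine le_of_eq_of_le (congr_arg _ (sum_congr rfl fun r _ => sum_congr rfl fun s _ => ?_)) h
    rw [Complex.ofReal_div, Complex.ofReal_one, mul_one_div]
  · refine (sum_le_sum fun s _ => csc_row_term_le (l r - l s)).trans ?_
    rw [← mul_sum]
    have h2 := sum_inv_sq_le (F := univ.erase r)
      (t := fun s => l r - l s - round (l r - l s)) hδ
      (fun s hs => hgap r s (ne_of_mem_erase hs).symm)
      (fun s _ u _ hne => by
        refine (hgap u s hne.symm).trans ((ThreePrimes.nearDist_le_abs_sub _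
          (round (l r - l s) - round (l r - l u))).trans (le_of_eq ?_))
        congr 1
        push_cast
        ring)
    rw [sum_erase _ (by simp)] at h2
    refine (mul_le_mul_of_nonneg_left h2 (by positivity)).trans (le_of_eq ?_)
    field_simp

end FA.MeanValue
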